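import Mathlib
import Fermat.Prelude.Def_AlgebraicCurve_Correspondence
import Fermat.Agent.MU.Lib.BadRed.KroneckerCharpoly
import Fermat.Agent.S24.Residue

section MergeWrap_Lib_BadRed_HPVal_CharPole -- from Lib/BadRed/HPVal/CharPole.lean

set_option autoImplicit false
set_option linter.style.haveILetI false
set_option linter.unusedSectionVars false

noncomputable section

namespace Fermat.Agent.HPVal

open AlgebraicCurve Polynomial Fermat.Agent.BadRed

section Inst

variable {K F F' : Type*} [Field K] [Field F] [Field F'] [Algebra K F] [Algebra K F']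
  [Algebra F F'] [IsScalarTower K F F'] [Algebra.IsIntegral F F'] [Module.Finite F F']
  [HasPrincipalDivisors K F']

/-- the norm of a function which is regular on the fibre of `v` is regular at `v`. -/
theorem cpole_ord_norm_nonneg (H : Divisor.PushforwardNormFormula K F F') (v : Place K F)
    (g : F') (hg : ∀ w : Place K F', w.restrict F = v → 0 ≤ w.ord g) :
    0 ≤ v.ord (Algebra.norm F g) := by
  classical
  by_cases hg0 : g = 0
  · subst hg0
    rw [Algebra.norm_zero, Place.ord_zero]
  obtain ⟨D, hD, -⟩ := HasPrincipalDivisors.exists_divisor (K := K) g hg0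
  rw [← H g hg0 D hD v, Divisor.pushforward_apply]
  refine Finset.sum_nonneg fun w _ => ?_
  split_ifs with h
  · rw [hD]
    exact mul_nonneg (hg w h) (Int.natCast_nonneg _)
  · exact le_rfl

end Inst

section Along

variable {K F F' : Type*} [Field K] [Field F] [Field F'] [Algebra K F] [Algebra K F']

/-- membership in the restricted place. -/
theorem cpole_mem_restrictAlong_iff (φ : F →ₐ[K] F') (hφ : φ.toRingHom.IsIntegral)
    (w : Place K F') (f : F) :
    f ∈ (w.restrictAlong φ hφ).toValuationSubring ↔ φ f ∈ w.toValuationSubring :=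
  Iff.rfl

/-- regularity at the restricted place. -/
theorem cpole_ord_restrictAlong_nonneg_iff (φ : F →ₐ[K] F') (hφ : φ.toRingHom.IsIntegral)
    (w : Place K F') (f : F) :
    0 ≤ (w.restrictAlong φ hφ).ord f ↔ 0 ≤ w.ord (φ f) := by
  rw [← Fermat.Agent.S24Res.mem_iff_ord_nonneg, ← Fermat.Agent.S24Res.mem_iff_ord_nonneg]
  exact cpole_mem_restrictAlong_iff φ hφ w f

/-- the norm along `φ` of a function which is regular on the fibre of `v` is regular at `v`. -/
theorem cpole_ord_normAlong_nonneg (φ : F →ₐ[K] F') (hφ : φ.toRingHom.IsIntegral)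
    (hfin : FiniteAlong K φ) (H : NormFormulaAlong K φ hfin) [HasPrincipalDivisors K F']
    (v : Place K F) (g : F')
    (hg : ∀ w : Place K F', w.restrictAlong φ hφ = v → 0 ≤ w.ord g) :
    0 ≤ v.ord (normAlongT φ g) := by
  letI := algebraAlong φ
  haveI := isScalarTower_along φ
  haveI := isIntegral_along φ hφ
  haveI : Module.Finite F F' := hfin
  exact cpole_ord_norm_nonneg (K := K) (F := F) (F' := F') H v g hg

/-- **the coefficients of the characteristic polynomial** of `x ∈ F'` (along `α`) are regular at
a place `v` of `F` as soon as `x` is regular at all places of `F'` over `v`. -/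
theorem cpole_charpoly_coeff [Infinite K] (α : F →ₐ[K] F') (hα : α.toRingHom.IsIntegral)
    (hfin : FiniteAlong K α) (H : NormFormulaAlong K α hfin) [HasPrincipalDivisors K F']
    (v : Place K F) (x : F')
    (hx : ∀ w : Place K F', w.restrictAlong α hα = v → 0 ≤ w.ord x) (i : ℕ) :
    0 ≤ v.ord ((charpolyAlong α hfin x).coeff i) := by
  classical
  set C := charpolyAlong α hfin x with hC
  set n := C.natDegree with hn
  let a : Fin (n + 1) → K := fun i => Infinite.natEmbedding K (i : ℕ)
  let c : Fin (n + 1) → F := fun i => algebraMap K F (a i)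
  have hcinj : Function.Injective c :=
    (algebraMap K F).injective.comp
      ((Infinite.natEmbedding K).injective.comp Fin.val_injective)
  let O : Subring F := v.toValuationSubring.toSubring
  have hcO : ∀ i, c i ∈ O := fun i => v.algebraMap_mem' _
  have hunit : ∀ i j, i ≠ j → (c i - c j)⁻¹ ∈ O := by
    intro i j _
    have h1 : (c i - c j)⁻¹ = algebraMap K F ((a i - a j)⁻¹) := by
      rw [map_inv₀, map_sub]
    rw [h1]
    exact v.algebraMap_mem' _
  have hval : ∀ i, C.eval (c i) ∈ O := by
    intro i
    rw [hC, eval_charpolyAlong]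
    refine Fermat.Agent.S24Res.mem_of_ord_nonneg v ?_
    refine cpole_ord_normAlong_nonneg α hα hfin H v _ fun w hw => ?_
    refine Fermat.Agent.S24Res.ord_nonneg_of_mem w ?_
    refine sub_mem ?_ (Fermat.Agent.S24Res.mem_of_ord_nonneg w (hx w hw))
    have h1 : α (c i) = algebraMap K F' (a i) := α.commutes _
    rw [h1]
    exact w.algebraMap_mem' _
  obtain ⟨P, hP⟩ := exists_lift_of_eval_mem O C n le_rfl c hcinj hcO hunit hval
  have h2 : C.coeff i = ((P.coeff i : O) : F) := by
    rw [← hP, Polynomial.coeff_map]
    rfl
  rw [h2]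
  exact Fermat.Agent.S24Res.ord_nonneg_of_mem v (P.coeff i).2

end Along

end Fermat.Agent.HPVal
end
end MergeWrap_Lib_BadRed_HPVal_CharPole
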