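import Mathlib
import Fermat.Agent.Lib.BadRed.HPVal.DiscPoints
import Fermat.Agent.MU.Lib.BadRed.HPVal.DiscNorm
import Fermat.Agent.MU.Lib.BadRed.HPVal.DiscRes
import Fermat.Agent.Lib.BadRed.HPVal.DiscLat

section MergeWrap_Lib_BadRed_HPVal_Arch -- from Lib/BadRed/HPVal/Arch.lean

set_option autoImplicit false

namespace Fermat.Agent.HPVal

variable {K : Type*} [Field K]

/-- integers are in every valuation ring. -/
theorem hpArch_intCast_le_one (A : ValuationSubring K) (y : ℤ) : A.valuation (y : K) ≤ 1 :=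
  (A.valuation_le_one_iff _).mpr (intCast_mem A y)

/-- a natural number prime to `q` is a unit of `A` when `q` is a non-unit. -/
theorem hpArch_coprime_eq_one (A : ValuationSubring K) {q n : ℕ}
    (hqA : (q : K) ∈ A.nonunits) (hn : Nat.Coprime n q) : A.valuation (n : K) = 1 := by
  have hle : A.valuation (n : K) ≤ 1 := by
    have := hpArch_intCast_le_one A (n : ℤ)
    rwa [Int.cast_natCast] at this
  refine le_antisymm hle ?_
  by_contra hlt
  rw [not_le] at hlt
  have hcop : IsCoprime (n : ℤ) (q : ℤ) := Nat.isCoprime_iff_coprime.mpr hn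
  obtain ⟨a, b, hab⟩ := hcop
  have hK : (a : K) * (n : K) + (b : K) * (q : K) = 1 := by
    have := congrArg (Int.cast : ℤ → K) hab
    push_cast at this
    exact this
  have h1 : A.valuation ((a : K) * (n : K)) < 1 := by
    rw [map_mul]
    calc A.valuation (a : K) * A.valuation (n : K) ≤ 1 * A.valuation (n : K) :=
          mul_le_mul_left (hpArch_intCast_le_one A a) _
      _ = A.valuation (n : K) := one_mul _
      _ < 1 := hlt
  have h2 : A.valuation ((b : K) * (q : K)) < 1 := by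
    rw [map_mul]
    calc A.valuation (b : K) * A.valuation (q : K) ≤ 1 * A.valuation (q : K) :=
          mul_le_mul_left (hpArch_intCast_le_one A b) _
      _ = A.valuation (q : K) := one_mul _
      _ < 1 := hqA
  have h3 := A.valuation.map_add ((a : K) * (n : K)) ((b : K) * (q : K))
  rw [hK, map_one] at h3
  exact absurd h3 (not_le.mpr (max_lt h1 h2))

/-- every non-zero natural number is `q ^ m` times a unit of `A`. -/
theorem hpArch_nat (A : ValuationSubring K) {q : ℕ} (hq : q.Prime)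
    (hqA : (q : K) ∈ A.nonunits) {n : ℕ} (hn : n ≠ 0) :
    ∃ m : ℕ, A.valuation (n : K) = A.valuation (q : K) ^ m := by
  obtain ⟨m, n', hn', e⟩ := Nat.exists_eq_pow_mul_and_not_dvd hn q hq.ne_one
  refine ⟨m, ?_⟩
  have hcop : Nat.Coprime n' q := ((Nat.Prime.coprime_iff_not_dvd hq).mpr hn').symm
  rw [e]
  push_cast
  rw [map_mul, map_pow, hpArch_coprime_eq_one A hqA hcop, mul_one]

theorem hpArch_int (A : ValuationSubring K) {q : ℕ} (hq : q.Prime)
    (hqA : (q : K) ∈ A.nonunits) {y : ℤ} (hy : y ≠ 0) :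
    ∃ m : ℕ, A.valuation (y : K) = A.valuation (q : K) ^ m := by
  obtain ⟨m, hm⟩ := hpArch_nat A hq hqA (Int.natAbs_ne_zero.mpr hy)
  refine ⟨m, ?_⟩
  rw [← hm]
  rcases Int.natAbs_eq y with h | h
  · conv_lhs => rw [h]
    simp
  · conv_lhs => rw [h]
    simp [Valuation.map_neg]

/-- every non-zero element of an algebraic extension of `ℚ` dominates a non-zero integer. -/
theorem hpArch_le [CharZero K] [Algebra.IsAlgebraic ℚ K] (A : ValuationSubring K) {c : K}
    (hc : c ≠ 0) : ∃ y : ℤ, y ≠ 0 ∧ A.valuation (y : K) ≤ A.valuation c := by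
  have halgQ : IsAlgebraic ℚ c⁻¹ := Algebra.IsAlgebraic.isAlgebraic _
  have halg : IsAlgebraic ℤ c⁻¹ := (IsFractionRing.isAlgebraic_iff ℤ ℚ K).mpr halgQ
  obtain ⟨y, hy, hint⟩ := halg.exists_integral_multiple
  refine ⟨y, hy, ?_⟩
  have hintA : IsIntegral A (y • c⁻¹) := hint.tower_top
  obtain ⟨a, ha⟩ := IsIntegrallyClosed.isIntegral_iff.mp hintA
  have hmem : y • c⁻¹ ∈ A := by
    rw [← ha]
    exact a.2
  have hle := (A.valuation_le_one_iff _).mpr hmem
  rw [zsmul_eq_mul, map_mul, map_inv₀] at hle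
  have hvc : A.valuation c ≠ 0 := (Valuation.ne_zero_iff _).mpr hc
  have := mul_le_mul_left hle (A.valuation c)
  rwa [one_mul, mul_assoc, inv_mul_cancel₀ hvc, mul_one] at this

/-- **rank one**: the powers of `ϖ` are cofinal. -/
theorem hpArch [CharZero K] [Algebra.IsAlgebraic ℚ K] (A : ValuationSubring K) {q : ℕ}
    (hq : q.Prime) (hqA : (q : K) ∈ A.nonunits) {ϖ : K} {e : ℕ}
    (hϖ1 : A.valuation ϖ < 1) (hϖe : A.valuation (ϖ ^ e) ≤ A.valuation (q : K)) :
    ∀ c : K, c ≠ 0 → ∃ N : ℕ, A.valuation (ϖ ^ N) < A.valuation c := by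
  intro c hc
  have hvc : 0 < A.valuation c := zero_lt_iff.mpr ((Valuation.ne_zero_iff _).mpr hc)
  rcases eq_or_ne ϖ 0 with rfl | hϖ0
  · exact ⟨1, by simpa using hvc⟩
  obtain ⟨y, hy, hyc⟩ := hpArch_le A hc
  obtain ⟨m, hm⟩ := hpArch_int A hq hqA hy
  refine ⟨e * m + 1, ?_⟩
  have h1 : A.valuation (ϖ ^ (e * m)) ≤ A.valuation c := by
    rw [pow_mul, map_pow]
    calc A.valuation (ϖ ^ e) ^ m ≤ A.valuation (q : K) ^ m := pow_le_pow_left₀ zero_le hϖe m
      _ = A.valuation (y : K) := hm.symm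
      _ ≤ A.valuation c := hyc
  have hpos : 0 < A.valuation (ϖ ^ (e * m)) :=
    zero_lt_iff.mpr ((Valuation.ne_zero_iff _).mpr (pow_ne_zero _ hϖ0))
  have h2 : A.valuation (ϖ ^ (e * m + 1)) < A.valuation (ϖ ^ (e * m)) := by
    rw [pow_succ, map_mul]
    exact mul_lt_of_lt_one_right hpos hϖ1
  exact h2.trans_le h1

end Fermat.Agent.HPVal
end MergeWrap_Lib_BadRed_HPVal_Arch

section MergeWrap_Lib_BadRed_HPVal_DiscAsm -- from Lib/BadRed/HPVal/DiscAsm.lean

set_option autoImplicit false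

noncomputable section

namespace Fermat.Agent.HPVal

open AlgebraicCurve Fermat.Agent.S18Key Fermat.Agent.RR

variable {K F k Fk : Type*} [Field K] [Field F] [Algebra K F] [Field k] [Field Fk] [Algebra k Fk]

variable {S : RedSetup K F k Fk} {P : Place k Fk}

/-- the residue map of `A` kills exactly the non-units. -/
theorem redSetup_res_eq_zero_iff (S : RedSetup K F k Fk) (a : S.A) :
    S.res a = 0 ↔ ¬ IsUnit a := by
  obtain ⟨c, hc⟩ := a
  rw [res_eq_zero_iff (S := S) hc]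
  constructor
  · rintro (h0 | hinv) hu
    · subst h0
      have h00 : (⟨0, hc⟩ : S.A) = 0 := rfl
      rw [h00] at hu
      exact not_isUnit_zero hu
    · obtain ⟨b, hb⟩ := isUnit_iff_exists_inv.mp hu
      have h1 : c * (b : K) = 1 := by
        have := congrArg Subtype.val hb
        simpa using this
      have : c⁻¹ = (b : K) := inv_eq_of_mul_eq_one_right h1
      exact hinv (this ▸ b.2)
  · intro hu
    by_contra hno
    rw [not_or, not_not] at hno
    exact hu ⟨⟨⟨c, hc⟩, ⟨c⁻¹, hno.2⟩, Subtype.ext (mul_inv_cancel₀ hno.1),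
      Subtype.ext (inv_mul_cancel₀ hno.1)⟩, rfl⟩

namespace DiscPoint

variable {Pt : Place K F} {t : F}

/-- **the assembly**: a `DiscPoint` gives the `DiscData` of the disc `|t| ≤ |ϖ|`. -/
theorem discData (D : DiscPoint S P Pt t) (hFk : IsRRField k Fk) {ϖ : K} (hϖ0 : ϖ ≠ 0)
    (hϖA : ϖ ∈ S.A) (hϖ : S.res ⟨ϖ, hϖA⟩ = 0)
    (harch : ∀ c : K, c ≠ 0 → ∃ N : ℕ, S.A.valuation (ϖ ^ N) < S.A.valuation c)
    (Q₀ : Place K F) (hQ₀ : S.r Q₀ ≠ P) :
    DiscData S.A S.res S.Ov.toSubring (discRing S P) ϖ t (discEv S P hFk) where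
  circle := D.circleData hFk hϖ0 hϖA hϖ
  π_mem := hϖA
  res_eq_zero_iff := redSetup_res_eq_zero_iff S
  const_mem := fun _ ha => const_mem_discRing ha
  ev_const := fun _ ha _ => discEv_const hFk ha
  taylor := fun _ hg => D.exists_div hg
  sep := fun _ _ h => D.sep h
  arch := harch
  frac := discRing_frac S P Q₀ hQ₀

/-- **the disc valuation exists and is unique.** -/
theorem exists_discVal_unique (D : DiscPoint S P Pt t) (hFk : IsRRField k Fk) {ϖ : K}
    (hϖ0 : ϖ ≠ 0) (hϖA : ϖ ∈ S.A) (hϖ : S.res ⟨ϖ, hϖA⟩ = 0)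
    (harch : ∀ c : K, c ≠ 0 → ∃ N : ℕ, S.A.valuation (ϖ ^ N) < S.A.valuation c)
    (Q₀ : Place K F) (hQ₀ : S.r Q₀ ≠ P) :
    ∃! V : ValuationSubring F, IsDiscVal S.A (discRing S P) ϖ t (discEv S P hFk) V := by
  have DD := D.discData hFk hϖ0 hϖA hϖ harch Q₀ hQ₀
  obtain ⟨V, hV, -⟩ := DD.exists_isDiscVal
  exact ⟨V, hV, fun V' hV' => DD.isDiscVal_unique hV' hV⟩

/-- the disc valuation: contains `R_P`, `g ∈ R_P` is a non-unit iff `(red g)(P) = 0`, `G(t/ϖ)` is
a non-unit iff `G` reduces to `0`; `e = 1`. -/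
theorem discVal_props (D : DiscPoint S P Pt t) (hFk : IsRRField k Fk) {ϖ : K}
    (hϖ0 : ϖ ≠ 0) (hϖA : ϖ ∈ S.A) (hϖ : S.res ⟨ϖ, hϖA⟩ = 0)
    (harch : ∀ c : K, c ≠ 0 → ∃ N : ℕ, S.A.valuation (ϖ ^ N) < S.A.valuation c)
    (Q₀ : Place K F) (hQ₀ : S.r Q₀ ≠ P) {V : ValuationSubring F}
    (hV : IsDiscVal S.A (discRing S P) ϖ t (discEv S P hFk) V) :
    (∀ b ∈ discRing S P, b ∈ V) ∧
      (∀ b : discRing S P, (b : F) ∈ V.nonunits ↔ discEv S P hFk b = 0) ∧
      (∀ G : Polynomial (discRing S P),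
        (CircleData.evalHom (discRing S P) (algebraMap K F ϖ) t G ∈ V.nonunits ↔
          G.map (discEv S P hFk) = 0)) ∧
      (∀ f : F, f ≠ 0 → ∃ c : K, c ≠ 0 ∧ f * (algebraMap K F c)⁻¹ ∈ V ∧
        (f * (algebraMap K F c)⁻¹)⁻¹ ∈ V) := by
  have DD := D.discData hFk hϖ0 hϖA hϖ harch Q₀ hQ₀
  obtain ⟨V₀, hV₀, hB, hnu, hG⟩ := DD.exists_isDiscVal
  have hVV : V = V₀ := DD.isDiscVal_unique hV hV₀
  subst hVV
  exact ⟨hB, hnu, hG, fun f hf => DD.isDiscVal_scale hV hf⟩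

end DiscPoint

end Fermat.Agent.HPVal
end
end MergeWrap_Lib_BadRed_HPVal_DiscAsm

section MergeWrap_Lib_BadRed_HPVal_DiscAsmQ -- from Lib/BadRed/HPVal/DiscAsmQ.lean

set_option autoImplicit false

noncomputable section

namespace Fermat.Agent.HPVal

open AlgebraicCurve Fermat.Agent.S18Key Fermat.Agent.RR

variable {K F k Fk : Type*} [Field K] [Field F] [Algebra K F] [Field k] [Field Fk] [Algebra k Fk]

variable {S : RedSetup K F k Fk} {P : Place k Fk}

/-- a function with a zero has a pole. -/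
theorem exists_pole_of_zero (hFk : IsRRField k Fk) {g : Fk} {P : Place k Fk}
    (hpos : 0 < P.ord g) : ∃ Q : Place k Fk, Q.ord g < 0 := by
  classical
  by_contra hno
  have hnn : ∀ Q : Place k Fk, 0 ≤ Q.ord g := fun Q => not_lt.mp fun h => hno ⟨Q, h⟩
  have hdeg := degree_divOf hFk g
  rw [degree_eq_sum hFk] at hdeg
  have hPs : P ∈ (divOf hFk g).support := by
    rw [Finsupp.mem_support_iff, divOf_apply]
    exact hpos.ne'
  have h1 : (divOf hFk g) P ≤ ∑ Q ∈ (divOf hFk g).support, (divOf hFk g) Q :=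
    Finset.single_le_sum (f := fun Q => (divOf hFk g) Q)
      (fun Q _ => by rw [divOf_apply]; exact hnn Q) hPs
  rw [hdeg, divOf_apply] at h1
  omega

namespace DiscPoint

variable {Pt : Place K F} {t : F}

/-- some place of `F` does not reduce to `P`: a point over a pole of `red t`. -/
theorem exists_place_ne (D : DiscPoint S P Pt t) (hFk : IsRRField k Fk) :
    ∃ Q₀ : Place K F, S.r Q₀ ≠ P := by
  classical
  have hpos : 0 < P.ord (S.red t) := by
    rw [D.ord_t]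
    exact one_pos
  obtain ⟨Q, hQ⟩ := exists_pole_of_zero hFk hpos
  have hQP : Q ≠ P := by
    rintro rfl
    omega
  have hpush := push_eq D.isU_t Q
  rw [mapDomain_apply_eq_sum] at hpush
  have hex : ∃ x ∈ (divOf S.hF t).support, (if S.r x = Q then divOf S.hF t x else 0) < 0 := by
    by_contra hno
    have hno' : ∀ x ∈ (divOf S.hF t).support,
        0 ≤ (if S.r x = Q then divOf S.hF t x else 0) := fun x hx =>
      not_lt.mp fun hlt => hno ⟨x, hx, hlt⟩
    have := Finset.sum_nonneg hno'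
    omega
  obtain ⟨x, -, hx⟩ := hex
  by_cases hxQ : S.r x = Q
  · exact ⟨x, hxQ ▸ hQP⟩
  · rw [if_neg hxQ] at hx
    exact absurd hx (lt_irrefl _)

/-- `DiscData` without the auxiliary place. -/
theorem discData' (D : DiscPoint S P Pt t) (hFk : IsRRField k Fk) {ϖ : K} (hϖ0 : ϖ ≠ 0)
    (hϖA : ϖ ∈ S.A) (hϖ : S.res ⟨ϖ, hϖA⟩ = 0)
    (harch : ∀ c : K, c ≠ 0 → ∃ N : ℕ, S.A.valuation (ϖ ^ N) < S.A.valuation c) :
    DiscData S.A S.res S.Ov.toSubring (discRing S P) ϖ t (discEv S P hFk) := by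
  obtain ⟨Q₀, hQ₀⟩ := D.exists_place_ne hFk
  exact D.discData hFk hϖ0 hϖA hϖ harch Q₀ hQ₀

/-- the uniformiser condition in terms of the valuation. -/
theorem res_eq_zero_of_valuation_lt (S : RedSetup K F k Fk) {ϖ : K} (hϖA : ϖ ∈ S.A)
    (h : S.A.valuation ϖ < 1) : S.res ⟨ϖ, hϖA⟩ = 0 := by
  rw [redSetup_res_eq_zero_iff]
  intro hu
  have := (S.A.valuation_eq_one_iff ⟨ϖ, hϖA⟩).mp hu
  exact h.ne this

/-- **`DiscData` over constant fields algebraic over `ℚ`**: no side hypotheses. -/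
theorem discDataQ [CharZero K] [Algebra.IsAlgebraic ℚ K] (D : DiscPoint S P Pt t)
    (hFk : IsRRField k Fk) {q : ℕ} (hq : q.Prime) (hqA : (q : K) ∈ S.A.nonunits) {ϖ : K}
    {e : ℕ} (hϖ0 : ϖ ≠ 0) (hϖ1 : S.A.valuation ϖ < 1)
    (hϖe : S.A.valuation (ϖ ^ e) ≤ S.A.valuation (q : K)) :
    DiscData S.A S.res S.Ov.toSubring (discRing S P) ϖ t
      (discEv S P hFk) :=
  have hϖA : ϖ ∈ S.A := (S.A.valuation_le_one_iff ϖ).mp hϖ1.le
  D.discData' hFk hϖ0 hϖA (res_eq_zero_of_valuation_lt S hϖA hϖ1)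
    (hpArch S.A hq hqA hϖ1 hϖe)

/-- the disc valuation exists and is unique (constants algebraic over `ℚ`). -/
theorem exists_discValQ_unique [CharZero K] [Algebra.IsAlgebraic ℚ K] (D : DiscPoint S P Pt t)
    (hFk : IsRRField k Fk) {q : ℕ} (hq : q.Prime) (hqA : (q : K) ∈ S.A.nonunits) {ϖ : K}
    {e : ℕ} (hϖ0 : ϖ ≠ 0) (hϖ1 : S.A.valuation ϖ < 1)
    (hϖe : S.A.valuation (ϖ ^ e) ≤ S.A.valuation (q : K)) :
    ∃! V : ValuationSubring F, IsDiscVal S.A (discRing S P) ϖ t (discEv S P hFk) V := by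
  have DD := D.discDataQ hFk hq hqA hϖ0 hϖ1 hϖe
  obtain ⟨V, hV, -⟩ := DD.exists_isDiscVal
  exact ⟨V, hV, fun V' hV' => DD.isDiscVal_unique hV' hV⟩

end DiscPoint

end Fermat.Agent.HPVal
end
end MergeWrap_Lib_BadRed_HPVal_DiscAsmQ

section MergeWrap_Lib_BadRed_HPVal_DiscLatAsm -- from Lib/BadRed/HPVal/DiscLatAsm.lean

set_option autoImplicit false

noncomputable section

namespace Fermat.Agent.HPVal

open AlgebraicCurve Fermat.Agent.S18Key Fermat.Agent.RR Polynomial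

variable {K F k Fk : Type*} [Field K] [Field F] [Algebra K F] [Field k] [Field Fk] [Algebra k Fk]

variable {S : RedSetup K F k Fk} {P : Place k Fk}

namespace DiscPoint

variable {Pt : Place K F} {t : F}

/-- the `DiscLatData` of a disc valuation `V` with residue map `ρ : V → k(X)`, `ρ (t / ϖ) = X`. -/
theorem discLatData_of (D : DiscPoint S P Pt t) (hFk : IsRRField k Fk) {ϖ : K} (hϖ0 : ϖ ≠ 0)
    (hϖA : ϖ ∈ S.A) (hϖ : S.res ⟨ϖ, hϖA⟩ = 0)
    (harch : ∀ c : K, c ≠ 0 → ∃ N : ℕ, S.A.valuation (ϖ ^ N) < S.A.valuation c)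
    {V : ValuationSubring F} {ρ : V →+* RatFunc k}
    (hV : IsDiscVal S.A (discRing S P) ϖ t (discEv S P hFk) V)
    (hker : ∀ f : V, ρ f = 0 ↔ ¬ IsUnit f)
    (hconst : ∀ (c : K) (hc : c ∈ S.A) (hc' : algebraMap K F c ∈ V),
      ρ ⟨algebraMap K F c, hc'⟩ = algebraMap k (RatFunc k) (S.res ⟨c, hc⟩))
    (hY : ∀ h : t * (algebraMap K F ϖ)⁻¹ ∈ V, ρ ⟨t * (algebraMap K F ϖ)⁻¹, h⟩ = RatFunc.X) :
    DiscLatData S.A V S.res ρ (discRing S P) t ϖ (Fermat.Agent.FF.valueAt S.hF Pt) := by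
  have DD := D.discData' hFk hϖ0 hϖA hϖ harch
  have hYmem : t * (algebraMap K F ϖ)⁻¹ ∈ V := by
    have h1 := DD.isDiscVal_evalHom_mem hV (X : (discRing S P)[X])
    rwa [CircleData.evalHom_X] at h1
  exact
    { mem_O_iff := hV.mem_iff
      ρ_algebraMap := hconst
      ρ_eq_zero_iff := hker
      R_le := DD.isDiscVal_le hV
      A_le := fun _ ha => const_mem_discRing ha
      t_mem := D.t_mem
      t_ne := D.t_ne
      π_ne := hϖ0
      π_mem := hϖA
      Y_mem := hYmem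
      ev_mem := fun _ hg => D.value_mem hg
      ev_add := fun _ hg _ hh => D.value_add hg hh
      ev_smul := fun a _ _ hg => D.value_smul a hg
      div := fun _ hg => D.sub_value_div_mem hg
      sep := fun _ _ h => D.sep h
      tr := fun p hp => by
        rw [hY hYmem] at hp
        have h1 : Polynomial.aeval (RatFunc.X : RatFunc k) p = algebraMap k[X] (RatFunc k) p := by
          rw [← RatFunc.algebraMap_X, Polynomial.aeval_algebraMap_apply, Polynomial.aeval_X_left,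
            AlgHom.id_apply]
        rw [h1] at hp
        exact (map_eq_zero_iff _ (IsFractionRing.injective k[X] (RatFunc k))).mp hp
      arch := harch
      frac := DD.frac }

/-- **the disc valuation with residue map and lattice data exists.** -/
theorem exists_discLatData (D : DiscPoint S P Pt t) (hFk : IsRRField k Fk) {ϖ : K}
    (hϖ0 : ϖ ≠ 0) (hϖA : ϖ ∈ S.A) (hϖ : S.res ⟨ϖ, hϖA⟩ = 0)
    (harch : ∀ c : K, c ≠ 0 → ∃ N : ℕ, S.A.valuation (ϖ ^ N) < S.A.valuation c)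
    (hres : Function.Surjective S.res) :
    ∃ (V : ValuationSubring F) (ρ : V →+* RatFunc k),
      IsDiscVal S.A (discRing S P) ϖ t (discEv S P hFk) V ∧
      DiscLatData S.A V S.res ρ (discRing S P) t ϖ (Fermat.Agent.FF.valueAt S.hF Pt) ∧
      Function.Surjective ρ ∧
      (∀ (b : discRing S P) (hb : (b : F) ∈ V),
        ρ ⟨(b : F), hb⟩ = algebraMap k (RatFunc k) (discEv S P hFk b)) ∧
      (∀ h : t * (algebraMap K F ϖ)⁻¹ ∈ V, ρ ⟨t * (algebraMap K F ϖ)⁻¹, h⟩ = RatFunc.X) ∧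
      (∀ (G : (discRing S P)[X])
        (h : CircleData.evalHom (discRing S P) (algebraMap K F ϖ) t G ∈ V),
        ρ ⟨CircleData.evalHom (discRing S P) (algebraMap K F ϖ) t G, h⟩ =
          algebraMap k[X] (RatFunc k) (G.map (discEv S P hFk))) ∧
      (∀ f : F, f ≠ 0 → ∃ c : K, c ≠ 0 ∧ f * (algebraMap K F c)⁻¹ ∈ V ∧
        (f * (algebraMap K F c)⁻¹)⁻¹ ∈ V) := by
  have DD := D.discData' hFk hϖ0 hϖA hϖ harch
  obtain ⟨V, ρ, hV, hsurj, hker, hconst, hb, hY, hG⟩ := DD.exists_disc_residueMap hres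
  exact ⟨V, ρ, hV, D.discLatData_of hFk hϖ0 hϖA hϖ harch hV hker hconst hY, hsurj, hb, hY, hG,
    fun f hf => DD.isDiscVal_scale hV hf⟩

end DiscPoint

end Fermat.Agent.HPVal
end
end MergeWrap_Lib_BadRed_HPVal_DiscLatAsm
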